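/-
S41 / F3 (helper5): the abstract lattice algebra behind Ribet's level raising.

`lrf_finite_dichotomy`: a finite module over a commutative ring either contains a nonzero element
killed by the maximal ideal `𝔪`, or is killed by some `s ∉ 𝔪`.

`lrf_core`: `H, H'` finitely generated torsion-free lattices with commuting Hecke action (ring `R`,
maximal ideal `𝔪 ∋ p`), `α : H² → H'`, `β : H' → H²` with `β α = [[c, τ], [τ, c]]`.  If `α` is
injective mod `p` at `𝔪` (Ihara), `β` is surjective mod `p` at `𝔪` (duality) and some class of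
`H / p` killed by `𝔪` is killed by `c² - τ²`, then `(ker β) / p` contains a nonzero class killed
by `𝔪`.
-/
import Mathlib

set_option autoImplicit false

namespace Fermat.Agent.LR

open Submodule

section Dichotomy

variable {R : Type*} [CommRing R] (𝔪 : Ideal R) {M : Type*} [AddCommGroup M] [Module R M]

/-- an element killed by a power of `𝔪` produces a nonzero element killed by `𝔪` -/
theorem lrf_exists_killed (k : ℕ) : ∀ y : M, y ≠ 0 → (∀ t ∈ 𝔪 ^ k, t • y = 0) →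
    ∃ m : M, m ≠ 0 ∧ ∀ t ∈ 𝔪, t • m = 0 := by
  induction k with
  | zero =>
    intro y hy h
    exact absurd (by simpa using h 1 (by simp)) hy
  | succ k ih =>
    intro y hy h
    by_cases hall : ∀ t ∈ 𝔪, t • y = 0
    · exact ⟨y, hy, hall⟩
    · push Not at hall
      obtain ⟨t, ht, hty⟩ := hall
      refine ih (t • y) hty fun u hu => ?_
      rw [smul_smul]
      exact h (u * t) (by rw [pow_succ]; exact Ideal.mul_mem_mul hu ht)

variable [h𝔪 : 𝔪.IsMaximal]

/-- **a finite module either has `𝔪`-torsion or is killed by some `s ∉ 𝔪`** -/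
theorem lrf_finite_dichotomy [Finite M] :
    (∃ m : M, m ≠ 0 ∧ ∀ t ∈ 𝔪, t • m = 0) ∨ ∃ s : R, s ∉ 𝔪 ∧ ∀ m : M, s • m = 0 := by
  -- the chain `𝔪^n M` stabilises
  let f : ℕ →o (Submodule R M)ᵒᵈ :=
    ⟨fun n => OrderDual.toDual (𝔪 ^ n • (⊤ : Submodule R M)), fun a b hab =>
      OrderDual.toDual_le_toDual.mpr (Submodule.smul_mono_left (Ideal.pow_le_pow_right hab))⟩
  obtain ⟨n, hn⟩ := IsArtinian.monotone_stabilizes f
  have hst : 𝔪 ^ n • (⊤ : Submodule R M) = 𝔪 ^ (n + 1) • (⊤ : Submodule R M) := by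
    have := hn (n + 1) (Nat.le_succ n)
    exact OrderDual.toDual.injective this
  set N : Submodule R M := 𝔪 ^ n • (⊤ : Submodule R M) with hN
  have hNle : N ≤ 𝔪 • N := by
    rw [hN, ← Submodule.mul_smul, ← pow_succ', ← hst]
  obtain ⟨r, hr1, hrN⟩ :=
    Submodule.exists_sub_one_mem_and_smul_eq_zero_of_fg_of_le_smul 𝔪 N
      (IsNoetherian.noetherian N) hNle
  have hr : r ∉ 𝔪 := by
    intro hr
    apply h𝔪.ne_top
    rw [Ideal.eq_top_iff_one]
    have : r - (r - 1) ∈ 𝔪 := 𝔪.sub_mem hr hr1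
    simpa using this
  by_cases hall : ∀ x : M, r • x = 0
  · exact Or.inr ⟨r, hr, hall⟩
  · left
    push Not at hall
    obtain ⟨x, hx⟩ := hall
    refine lrf_exists_killed 𝔪 n (r • x) hx fun t ht => ?_
    rw [smul_comm]
    exact hrN _ (Submodule.smul_mem_smul ht Submodule.mem_top)

end Dichotomy

section Core

variable {R : Type*} [CommRing R] (𝔪 : Ideal R) [h𝔪 : 𝔪.IsMaximal]
  {H H' : Type*} [AddCommGroup H] [Module R H] [AddCommGroup H'] [Module R H']

/-- Nakayama: if the cokernel of `β` vanishes mod `p` at `𝔪`, it vanishes at `𝔪`. -/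
theorem lrf_coker_at (p : ℕ) (hp : (p : R) ∈ 𝔪) {L : Type*} [AddCommGroup L] [Module R L]
    [Module.Finite R L] (β : H' →ₗ[R] L)
    (hF2 : ∀ y : L, ∃ s : R, s ∉ 𝔪 ∧ ∃ (x' : H') (y' : L), s • y = β x' + p • y') :
    ∃ r : R, r ∉ 𝔪 ∧ ∀ y : L, ∃ x' : H', r • y = β x' := by
  set Nβ : Submodule R L := LinearMap.range β with hNβ
  have htop : (⊤ : Submodule R (L ⧸ Nβ)) ≤ 𝔪 • (⊤ : Submodule R (L ⧸ Nβ)) := by
    intro x _
    obtain ⟨y, rfl⟩ := Nβ.mkQ_surjective x
    obtain ⟨s, hs, x', y', hsy⟩ := hF2 y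
    obtain ⟨a, i, hi, hai⟩ := h𝔪.exists_inv hs
    have h1 : Nβ.mkQ y = (a * (p : R)) • Nβ.mkQ y' + i • Nβ.mkQ y := by
      have h2 : Nβ.mkQ (s • y) = (p : R) • Nβ.mkQ y' := by
        rw [hsy, map_add, Nat.cast_smul_eq_nsmul, map_nsmul]
        have : Nβ.mkQ (β x') = 0 := by
          rw [Submodule.mkQ_apply, Submodule.Quotient.mk_eq_zero]
          exact LinearMap.mem_range_self β x'
        rw [this, zero_add]
      calc Nβ.mkQ y = (a * s + i) • Nβ.mkQ y := by rw [hai, one_smul]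
        _ = a • Nβ.mkQ (s • y) + i • Nβ.mkQ y := by
            rw [add_smul, mul_smul, map_smul]
        _ = (a * (p : R)) • Nβ.mkQ y' + i • Nβ.mkQ y := by rw [h2, mul_smul]
    rw [h1]
    exact Submodule.add_mem _
      (Submodule.smul_mem_smul (𝔪.mul_mem_left a hp) Submodule.mem_top)
      (Submodule.smul_mem_smul hi Submodule.mem_top)
  obtain ⟨r, hr1, hr0⟩ :=
    Submodule.exists_sub_one_mem_and_smul_eq_zero_of_fg_of_le_smul 𝔪
      (⊤ : Submodule R (L ⧸ Nβ)) Module.Finite.fg_top htop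
  refine ⟨r, ?_, fun y => ?_⟩
  · intro hr
    apply h𝔪.ne_top
    rw [Ideal.eq_top_iff_one]
    have : r - (r - 1) ∈ 𝔪 := 𝔪.sub_mem hr hr1
    simpa using this
  · have h0 := hr0 (Nβ.mkQ y) Submodule.mem_top
    rw [← map_smul, Submodule.mkQ_apply, Submodule.Quotient.mk_eq_zero] at h0
    obtain ⟨x', hx'⟩ := h0
    exact ⟨x', hx'.symm⟩

/-- finiteness of `K / pK` for a finitely generated abelian group `K` -/
theorem lrf_finite_quot {K : Type*} [AddCommGroup K] [Module R K] [Module.Finite ℤ K] (p : ℕ)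
    (hp0 : 0 < p) (P : Submodule R K) (hP : ∀ k : K, p • k ∈ P) : Finite (K ⧸ P) := by
  have : Module.Finite ℤ (K ⧸ P) :=
    Module.Finite.of_surjective (P.mkQ.restrictScalars ℤ) P.mkQ_surjective
  refine Module.finite_of_fg_torsion (K ⧸ P) fun x => ?_
  obtain ⟨k, rfl⟩ := P.mkQ_surjective x
  refine ⟨⟨(p : ℤ), ?_⟩, ?_⟩
  · rw [mem_nonZeroDivisors_iff_ne_zero]
    exact_mod_cast hp0.ne'
  · show (p : ℤ) • P.mkQ k = 0
    rw [natCast_zsmul, ← map_nsmul, Submodule.mkQ_apply, Submodule.Quotient.mk_eq_zero]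
    exact hP k

/-- **the abstract level-raising lemma** -/
theorem lrf_core (p : ℕ) (hp0 : 0 < p) (hp : (p : R) ∈ 𝔪)
    [Module.Finite ℤ H] [Module.Finite ℤ H']
    (htf : ∀ y : H, p • y = 0 → y = 0)
    (α : H × H →ₗ[R] H') (β : H' →ₗ[R] H × H) (τ : H →ₗ[R] H) (c : ℤ)
    (hβα : ∀ x y : H, β (α (x, y)) = (c • x + τ y, τ x + c • y))
    (hF1 : ∀ x : H × H, (∃ y' : H', α x = p • y') →
      ∃ s : R, s ∉ 𝔪 ∧ ∃ x' : H × H, s • x = p • x')
    (hF2 : ∀ y : H × H, ∃ s : R, s ∉ 𝔪 ∧ ∃ (x' : H') (y' : H × H), s • y = β x' + p • y')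
    (hsing : ∃ z : H, (¬ ∃ z' : H, z = p • z') ∧ (∀ t ∈ 𝔪, ∃ z' : H, t • z = p • z') ∧
      ∃ z' : H, (c ^ 2) • z - τ (τ z) = p • z') :
    ∃ u : H', β u = 0 ∧ (¬ ∃ u' : H', u = p • u') ∧
      ∀ t ∈ 𝔪, ∃ u' : H', β u' = 0 ∧ t • u = p • u' := by
  classical
  by_contra hcon
  have hprime : 𝔪.IsPrime := h𝔪.isPrime
  -- torsion-freeness of `H × H`
  have htf2 : ∀ y : H × H, p • y = 0 → y = 0 := by
    rintro ⟨y1, y2⟩ hy
    have h1 : p • y1 = 0 := congrArg Prod.fst hy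
    have h2 : p • y2 = 0 := congrArg Prod.snd hy
    rw [htf y1 h1, htf y2 h2]
    rfl
  -- the kernel lattice and its reduction mod `p`
  set K : Submodule R H' := LinearMap.ker β with hK
  set P : Submodule R K := LinearMap.range ((p : R) • (LinearMap.id : K →ₗ[R] K)) with hPdef
  have hPmem : ∀ k : K, k ∈ P ↔ ∃ k' : K, k = p • k' := by
    intro k
    rw [hPdef, LinearMap.mem_range]
    constructor
    · rintro ⟨k', hk'⟩
      refine ⟨k', ?_⟩
      rw [← hk', LinearMap.smul_apply, LinearMap.id_apply, Nat.cast_smul_eq_nsmul]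
    · rintro ⟨k', hk'⟩
      refine ⟨k', ?_⟩
      rw [hk', LinearMap.smul_apply, LinearMap.id_apply, Nat.cast_smul_eq_nsmul]
  have hKfin : Module.Finite ℤ K := by
    have : IsNoetherian ℤ H' := isNoetherian_of_isNoetherianRing_of_finite ℤ H'
    have : Module.Finite ℤ (K.restrictScalars ℤ) := Module.IsNoetherian.finite ℤ _
    exact Module.Finite.of_surjective
      ((Submodule.restrictScalarsEquiv ℤ R H' K).toLinearMap.restrictScalars ℤ)
      (Submodule.restrictScalarsEquiv ℤ R H' K).surjective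
  have : Finite (K ⧸ P) :=
    lrf_finite_quot (R := R) p hp0 P fun k => (hPmem _).mpr ⟨k, rfl⟩
  -- no `𝔪`-torsion in `K / pK`
  have hno : ¬ ∃ m : K ⧸ P, m ≠ 0 ∧ ∀ t ∈ 𝔪, t • m = 0 := by
    rintro ⟨m, hm0, hm⟩
    obtain ⟨u, rfl⟩ := P.mkQ_surjective m
    apply hcon
    refine ⟨(u : H'), LinearMap.mem_ker.mp u.2, ?_, fun t ht => ?_⟩
    · rintro ⟨u', hu'⟩
      apply hm0
      have hβu' : β u' = 0 := by
        apply htf2
        rw [← map_nsmul, ← hu']
        exact LinearMap.mem_ker.mp u.2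
      rw [Submodule.mkQ_apply, Submodule.Quotient.mk_eq_zero, hPmem]
      exact ⟨⟨u', LinearMap.mem_ker.mpr hβu'⟩, Subtype.ext hu'⟩
    · have h0 := hm t ht
      rw [← map_smul, Submodule.mkQ_apply, Submodule.Quotient.mk_eq_zero, hPmem] at h0
      obtain ⟨k', hk'⟩ := h0
      refine ⟨(k' : H'), LinearMap.mem_ker.mp k'.2, ?_⟩
      have := congrArg (fun k : K => (k : H')) hk'
      simpa using this
  obtain ⟨s0, hs0, hs0K⟩ := (lrf_finite_dichotomy 𝔪 (M := K ⧸ P)).resolve_left hno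
  have hs0K' : ∀ k : H', β k = 0 → ∃ k' : H', β k' = 0 ∧ s0 • k = p • k' := by
    intro k hk
    have h0 := hs0K (P.mkQ ⟨k, LinearMap.mem_ker.mpr hk⟩)
    rw [← map_smul, Submodule.mkQ_apply, Submodule.Quotient.mk_eq_zero, hPmem] at h0
    obtain ⟨k', hk'⟩ := h0
    refine ⟨(k' : H'), LinearMap.mem_ker.mp k'.2, ?_⟩
    have := congrArg (fun k : K => (k : H')) hk'
    simpa using this
  -- the cokernel of `β` at `𝔪`
  have : Module.Finite R (H × H) := Module.Finite.of_restrictScalars_finite ℤ R (H × H)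
  obtain ⟨r, hr, hrβ⟩ := lrf_coker_at 𝔪 p hp β hF2
  -- `β` is injective mod `p` at `𝔪`
  have hβinj : ∀ x' : H', (∃ y : H × H, β x' = p • y) → ∃ w : H', (s0 * r) • x' = p • w := by
    rintro x' ⟨y, hy⟩
    obtain ⟨x'', hx''⟩ := hrβ y
    have hk : β (r • x' - p • x'') = 0 := by
      rw [map_sub, map_smul, map_nsmul, hy, ← hx'', smul_comm, sub_self]
    obtain ⟨k', -, hk'⟩ := hs0K' _ hk
    refine ⟨s0 • x'' + k', ?_⟩
    rw [smul_add, ← hk', smul_sub, mul_smul, smul_comm p s0 x'']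
    abel
  -- `β α` is injective mod `p` at `𝔪`
  have hMinj : ∀ x : H × H, (∃ y : H × H, β (α x) = p • y) →
      ∃ s : R, s ∉ 𝔪 ∧ ∃ x'' : H × H, s • x = p • x'' := by
    intro x hx
    obtain ⟨w, hw⟩ := hβinj (α x) hx
    obtain ⟨s, hs, x'', hx''⟩ := hF1 ((s0 * r) • x) ⟨w, by rw [map_smul, hw]⟩
    refine ⟨s * (s0 * r), ?_, x'', by rw [mul_smul, hx'']⟩
    intro hmem
    rcases hprime.mem_or_mem hmem with h | h
    · exact hs h
    · rcases hprime.mem_or_mem h with h | h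
      · exact hs0 h
      · exact hr h
  -- the contradiction at the singular class
  obtain ⟨z, hz0, hz𝔪, z', hz'⟩ := hsing
  obtain ⟨s1, hs1, x1, hx1⟩ := hMinj (c • z, -τ z) ⟨(z', 0), by
    rw [hβα]
    refine Prod.ext ?_ ?_
    · show c • c • z + τ (-τ z) = p • z'
      rw [map_neg, ← hz', smul_smul, ← pow_two, sub_eq_add_neg]
    · show τ (c • z) + c • -τ z = p • (0 : H)
      rw [map_zsmul, smul_neg, add_neg_cancel, smul_zero]⟩
  have ha1 : s1 • c • z = p • x1.1 := congrArg Prod.fst hx1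
  have ha2 : s1 • τ z = p • (-x1.2) := by
    have h2 : s1 • -τ z = p • x1.2 := congrArg Prod.snd hx1
    rw [smul_neg, ← h2, smul_neg, neg_neg]
  obtain ⟨s2, hs2, x2, hx2⟩ := hMinj (0, s1 • z) ⟨(-x1.2, x1.1), by
    rw [hβα]
    refine Prod.ext ?_ ?_
    · show c • (0 : H) + τ (s1 • z) = p • (-x1.2)
      rw [smul_zero, zero_add, map_smul, ha2]
    · show τ (0 : H) + c • s1 • z = p • x1.1
      rw [map_zero, zero_add, smul_comm, ha1]⟩
  have hb : s2 • s1 • z = p • x2.2 := congrArg Prod.snd hx2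
  have hs21 : s2 * s1 ∉ 𝔪 := fun hmem => (hprime.mem_or_mem hmem).elim hs2 hs1
  obtain ⟨a, i, hi, hai⟩ := h𝔪.exists_inv hs21
  obtain ⟨zi, hzi⟩ := hz𝔪 i hi
  apply hz0
  refine ⟨a • x2.2 + zi, ?_⟩
  calc z = (a * (s2 * s1) + i) • z := by rw [hai, one_smul]
    _ = a • (s2 • s1 • z) + i • z := by rw [add_smul, mul_smul, mul_smul]
    _ = p • (a • x2.2 + zi) := by rw [hb, hzi, smul_add, smul_comm a p]

end Core

end Fermat.Agent.LR
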