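/-
S41 / F3 (helper5): the abstract level-raising lemma `lrf_core_gen` over an arbitrary base:
the only finiteness hypotheses are `Module.Finite R H` and `Finite (H' / p H')`, so the lemma
applies to lattices over `ℤ` and over `ℤ_[p]` alike.  `lrf_finite_quot_base` provides the second
hypothesis for a finitely generated module over a ring `𝒪` with `𝒪 / p` finite.
-/
import Mathlib
import Fermat.Agent.Lib.LR.F3.Core

set_option autoImplicit false

namespace Fermat.Agent.LR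

open Submodule

section CoreGen

variable {R : Type*} [CommRing R] (𝔪 : Ideal R) [h𝔪 : 𝔪.IsMaximal]
  {H H' : Type*} [AddCommGroup H] [Module R H] [AddCommGroup H'] [Module R H']

/-- the submodule `p M` of an `R`-module -/
def lrfP (R : Type*) [CommRing R] (M : Type*) [AddCommGroup M] [Module R M] (p : ℕ) :
    Submodule R M :=
  LinearMap.range ((p : R) • (LinearMap.id : M →ₗ[R] M))

theorem lrf_mem_P {M : Type*} [AddCommGroup M] [Module R M] (p : ℕ) (x : M) :
    x ∈ lrfP R M p ↔ ∃ y : M, x = p • y := by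
  rw [lrfP, LinearMap.mem_range]
  constructor
  · rintro ⟨y, hy⟩
    exact ⟨y, by rw [← hy, LinearMap.smul_apply, LinearMap.id_apply, Nat.cast_smul_eq_nsmul]⟩
  · rintro ⟨y, hy⟩
    exact ⟨y, by rw [hy, LinearMap.smul_apply, LinearMap.id_apply, Nat.cast_smul_eq_nsmul]⟩

/-- `M / p M` is finite for a finitely generated module over a ring `𝒪` with `𝒪 / p` finite -/
theorem lrf_finite_quot_base (𝒪 : Type*) [CommRing 𝒪] {M : Type*} [AddCommGroup M] [Module R M]
    [Module 𝒪 M] [Module.Finite 𝒪 M] (p : ℕ) [Finite (𝒪 ⧸ Ideal.span {(p : 𝒪)})] :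
    Finite (M ⧸ lrfP R M p) := by
  classical
  -- compare with the `𝒪`-quotient `M / (p) M`
  set I : Ideal 𝒪 := Ideal.span {(p : 𝒪)} with hI
  set Q := M ⧸ (I • (⊤ : Submodule 𝒪 M)) with hQ
  have hfinQ : Finite Q := by
    have : Module.Finite (𝒪 ⧸ I) Q := by
      have : Module.Finite 𝒪 Q := inferInstance
      exact Module.Finite.of_restrictScalars_finite 𝒪 (𝒪 ⧸ I) Q
    exact Module.finite_of_finite (𝒪 ⧸ I)
  -- the additive map `M / pM → Q` is injective
  let f : M →+ Q := ((I • (⊤ : Submodule 𝒪 M)).mkQ).toAddMonoidHom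
  have hker : ∀ x : M, f x = 0 → x ∈ lrfP R M p := by
    intro x hx
    have hx' : x ∈ I • (⊤ : Submodule 𝒪 M) := by
      have : (I • (⊤ : Submodule 𝒪 M)).mkQ x = 0 := hx
      rwa [Submodule.mkQ_apply, Submodule.Quotient.mk_eq_zero] at this
    rw [lrf_mem_P]
    refine Submodule.smul_induction_on hx' ?_ ?_
    · intro r hr n _
      obtain ⟨a, rfl⟩ := Ideal.mem_span_singleton'.mp hr
      refine ⟨a • n, ?_⟩
      rw [mul_smul, smul_comm a, Nat.cast_smul_eq_nsmul]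
    · rintro x y ⟨x', rfl⟩ ⟨y', rfl⟩
      exact ⟨x' + y', by rw [smul_add]⟩
  let g : (M ⧸ lrfP R M p) →+ Q :=
    QuotientAddGroup.lift (lrfP R M p).toAddSubgroup f (by
      intro x hx
      obtain ⟨y, rfl⟩ := (lrf_mem_P (R := R) p x).mp hx
      show (I • (⊤ : Submodule 𝒪 M)).mkQ (p • y) = 0
      rw [Submodule.mkQ_apply, Submodule.Quotient.mk_eq_zero, ← Nat.cast_smul_eq_nsmul 𝒪]
      exact Submodule.smul_mem_smul (Ideal.subset_span rfl) Submodule.mem_top)
  have hg : Function.Injective g := by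
    rw [injective_iff_map_eq_zero]
    intro x hx
    obtain ⟨y, rfl⟩ := (lrfP R M p).mkQ_surjective x
    have : f y = 0 := hx
    rw [Submodule.mkQ_apply, Submodule.Quotient.mk_eq_zero]
    exact hker y this
  exact Finite.of_injective g hg

/-- **the abstract level-raising lemma**, general base -/
theorem lrf_core_gen (p : ℕ) (hp : (p : R) ∈ 𝔪) [Module.Finite R H]
    (hfin : Finite (H' ⧸ lrfP R H' p))
    (htf : ∀ y : H, p • y = 0 → y = 0)
    (α : H × H →ₗ[R] H') (β : H' →ₗ[R] H × H) (τ : H →ₗ[R] H) (c : ℤ)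
    (hβα : ∀ x y : H, β (α (x, y)) = (c • x + τ y, τ x + c • y))
    (hF1 : ∀ x : H × H, (∃ y' : H', α x = p • y') →
      ∃ s : R, s ∉ 𝔪 ∧ ∃ x' : H × H, s • x = p • x')
    (hF2 : ∀ y : H × H, ∃ s : R, s ∉ 𝔪 ∧ ∃ (x' : H') (y' : H × H), s • y = β x' + p • y')
    (hsing : ∃ z : H, (¬ ∃ z' : H, z = p • z') ∧ (∀ t ∈ 𝔪, ∃ z' : H, t • z = p • z') ∧
      ∃ z' : H, (c ^ 2) • z - τ (τ z) = p • z') :
    ∃ u : H', β u = 0 ∧ (¬ ∃ u' : H', u = p • u') ∧
      ∀ t ∈ 𝔪, ∃ u' : H', β u' = 0 ∧ t • u = p • u' := by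
  classical
  by_contra hcon
  have hprime : 𝔪.IsPrime := h𝔪.isPrime
  have htf2 : ∀ y : H × H, p • y = 0 → y = 0 := by
    rintro ⟨y1, y2⟩ hy
    have h1 : p • y1 = 0 := congrArg Prod.fst hy
    have h2 : p • y2 = 0 := congrArg Prod.snd hy
    rw [htf y1 h1, htf y2 h2]
    rfl
  set K : Submodule R H' := LinearMap.ker β with hK
  set P : Submodule R K := lrfP R K p with hPdef
  have hPmem : ∀ k : K, k ∈ P ↔ ∃ k' : K, k = p • k' := fun k => lrf_mem_P p k
  -- `K / pK` embeds into `H' / pH'`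
  have hKfin : Finite (K ⧸ P) := by
    let g : (K ⧸ P) →ₗ[R] (H' ⧸ lrfP R H' p) :=
      P.liftQ ((lrfP R H' p).mkQ ∘ₗ K.subtype) (by
        intro k hk
        obtain ⟨k', rfl⟩ := (hPmem k).mp hk
        rw [LinearMap.mem_ker, LinearMap.comp_apply, Submodule.subtype_apply, Submodule.mkQ_apply,
          Submodule.Quotient.mk_eq_zero, lrf_mem_P]
        exact ⟨(k' : H'), by simp⟩)
    have hg : Function.Injective g := by
      rw [injective_iff_map_eq_zero]
      intro x hx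
      obtain ⟨k, rfl⟩ := P.mkQ_surjective x
      have h1 : (lrfP R H' p).mkQ (k : H') = 0 := hx
      rw [Submodule.mkQ_apply, Submodule.Quotient.mk_eq_zero, lrf_mem_P] at h1
      obtain ⟨u', hu'⟩ := h1
      have hβu' : β u' = 0 := by
        apply htf2
        rw [← map_nsmul, ← hu']
        exact LinearMap.mem_ker.mp k.2
      rw [Submodule.mkQ_apply, Submodule.Quotient.mk_eq_zero, hPmem]
      exact ⟨⟨u', LinearMap.mem_ker.mpr hβu'⟩, Subtype.ext hu'⟩
    exact Finite.of_injective g hg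
  have hno : ¬ ∃ m : K ⧸ P, m ≠ 0 ∧ ∀ t ∈ 𝔪, t • m = 0 := by
    rintro ⟨m, hm0, hm⟩
    obtain ⟨u, rfl⟩ := P.mkQ_surjective m
    apply hcon
    refine ⟨(u : H'), LinearMap.mem_ker.mp u.2, ?_, fun t ht => ?_⟩
    · rintro ⟨u', hu'⟩
      apply hm0
      have hβu' : β u' = 0 := by
        apply htf2
        rw [← map_nsmul, ← hu']
        exact LinearMap.mem_ker.mp u.2
      rw [Submodule.mkQ_apply, Submodule.Quotient.mk_eq_zero, hPmem]
      exact ⟨⟨u', LinearMap.mem_ker.mpr hβu'⟩, Subtype.ext hu'⟩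
    · have h0 := hm t ht
      rw [← map_smul, Submodule.mkQ_apply, Submodule.Quotient.mk_eq_zero, hPmem] at h0
      obtain ⟨k', hk'⟩ := h0
      refine ⟨(k' : H'), LinearMap.mem_ker.mp k'.2, ?_⟩
      have := congrArg (fun k : K => (k : H')) hk'
      simpa using this
  obtain ⟨s0, hs0, hs0K⟩ := (lrf_finite_dichotomy 𝔪 (M := K ⧸ P)).resolve_left hno
  have hs0K' : ∀ k : H', β k = 0 → ∃ k' : H', β k' = 0 ∧ s0 • k = p • k' := by
    intro k hk
    have h0 := hs0K (P.mkQ ⟨k, LinearMap.mem_ker.mpr hk⟩)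
    rw [← map_smul, Submodule.mkQ_apply, Submodule.Quotient.mk_eq_zero, hPmem] at h0
    obtain ⟨k', hk'⟩ := h0
    refine ⟨(k' : H'), LinearMap.mem_ker.mp k'.2, ?_⟩
    have := congrArg (fun k : K => (k : H')) hk'
    simpa using this
  obtain ⟨r, hr, hrβ⟩ := lrf_coker_at 𝔪 p hp β hF2
  have hβinj : ∀ x' : H', (∃ y : H × H, β x' = p • y) → ∃ w : H', (s0 * r) • x' = p • w := by
    rintro x' ⟨y, hy⟩
    obtain ⟨x'', hx''⟩ := hrβ y
    have hk : β (r • x' - p • x'') = 0 := by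
      rw [map_sub, map_smul, map_nsmul, hy, ← hx'', smul_comm, sub_self]
    obtain ⟨k', -, hk'⟩ := hs0K' _ hk
    refine ⟨s0 • x'' + k', ?_⟩
    rw [smul_add, ← hk', smul_sub, mul_smul, smul_comm p s0 x'']
    abel
  have hMinj : ∀ x : H × H, (∃ y : H × H, β (α x) = p • y) →
      ∃ s : R, s ∉ 𝔪 ∧ ∃ x'' : H × H, s • x = p • x'' := by
    intro x hx
    obtain ⟨w, hw⟩ := hβinj (α x) hx
    obtain ⟨s, hs, x'', hx''⟩ := hF1 ((s0 * r) • x) ⟨w, by rw [map_smul, hw]⟩
    refine ⟨s * (s0 * r), ?_, x'', by rw [mul_smul, hx'']⟩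
    intro hmem
    rcases hprime.mem_or_mem hmem with h | h
    · exact hs h
    · rcases hprime.mem_or_mem h with h | h
      · exact hs0 h
      · exact hr h
  obtain ⟨z, hz0, hz𝔪, z', hz'⟩ := hsing
  obtain ⟨s1, hs1, x1, hx1⟩ := hMinj (c • z, -τ z) ⟨(z', 0), by
    rw [hβα]
    refine Prod.ext ?_ ?_
    · show c • c • z + τ (-τ z) = p • z'
      rw [map_neg, ← hz', smul_smul, ← pow_two, sub_eq_add_neg]
    · show τ (c • z) + c • -τ z = p • (0 : H)
      rw [map_zsmul, smul_neg, add_neg_cancel, smul_zero]⟩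
  have ha1 : s1 • c • z = p • x1.1 := congrArg Prod.fst hx1
  have ha2 : s1 • τ z = p • (-x1.2) := by
    have h2 : s1 • -τ z = p • x1.2 := congrArg Prod.snd hx1
    rw [smul_neg, ← h2, smul_neg, neg_neg]
  obtain ⟨s2, hs2, x2, hx2⟩ := hMinj (0, s1 • z) ⟨(-x1.2, x1.1), by
    rw [hβα]
    refine Prod.ext ?_ ?_
    · show c • (0 : H) + τ (s1 • z) = p • (-x1.2)
      rw [smul_zero, zero_add, map_smul, ha2]
    · show τ (0 : H) + c • s1 • z = p • x1.1
      rw [map_zero, zero_add, smul_comm, ha1]⟩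
  have hb : s2 • s1 • z = p • x2.2 := congrArg Prod.snd hx2
  have hs21 : s2 * s1 ∉ 𝔪 := fun hmem => (hprime.mem_or_mem hmem).elim hs2 hs1
  obtain ⟨a, i, hi, hai⟩ := h𝔪.exists_inv hs21
  obtain ⟨zi, hzi⟩ := hz𝔪 i hi
  apply hz0
  refine ⟨a • x2.2 + zi, ?_⟩
  calc z = (a * (s2 * s1) + i) • z := by rw [hai, one_smul]
    _ = a • (s2 • s1 • z) + i • z := by rw [add_smul, mul_smul, mul_smul]
    _ = p • (a • x2.2 + zi) := by rw [hb, hzi, smul_add, smul_comm a p]

end CoreGen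

end Fermat.Agent.LR
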